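import Mathlib.AlgebraicGeometry.EllipticCurve.Affine.Point
import Mathlib.FieldTheory.IsAlgClosed.Basic
import Mathlib.Tactic.LinearCombination
import Mathlib.Tactic.FieldSimp

/-!
# The two-isogeny as a homomorphism

`(x, y) ↦ (y² / x², y (x² - b) / x²)` maps the points of `y² = x³ + a x² + b x` additively to
those of
`y² = x³ - 2 a x² + (a² - 4 b) x`: three points on a line go to three points on a line.
-/

set_option autoImplicit false
set_option linter.unusedSectionVars false

open WeierstrassCurve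

namespace FA.CM.Seven

universe u

variable {F : Type u} [Field F]

/-- `y² = x³ + a x² + b x`. -/
abbrev twoCurve (a b : F) : WeierstrassCurve F := ⟨0, a, 0, b, 0⟩

theorem twoCurve_equation {a b x y : F} :
    (twoCurve a b).toAffine.Equation x y ↔ y ^ 2 = x ^ 3 + a * x ^ 2 + b * x := by
  rw [Affine.equation_iff]; simp

theorem twoCurve_negY {a b x y : F} : (twoCurve a b).toAffine.negY x y = -y := by
  simp [Affine.negY]

variable [DecidableEq F] {a b : F}

/-- Three points with the symmetric functions of the intersection with a line add up to zero. -/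
theorem add_add_eq_zero_of_line {M C x₁ x₂ x₃ : F}
    (h₁ : (twoCurve a b).toAffine.Nonsingular x₁ (M * x₁ + C))
    (h₂ : (twoCurve a b).toAffine.Nonsingular x₂ (M * x₂ + C))
    (h₃ : (twoCurve a b).toAffine.Nonsingular x₃ (M * x₃ + C))
    (e₁ : x₁ + x₂ + x₃ = M ^ 2 - a) (e₂ : x₁ * x₂ + x₁ * x₃ + x₂ * x₃ = b - 2 * M * C) :
    Affine.Point.some _ _ h₁ + Affine.Point.some _ _ h₂ + Affine.Point.some _ _ h₃ = 0 := by
  have hxy : ¬ (x₁ = x₂ ∧ M * x₁ + C = (twoCurve a b).toAffine.negY x₂ (M * x₂ + C)) := by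
    rintro ⟨rfl, hy⟩
    rw [twoCurve_negY] at hy
    have hd : 3 * x₁ ^ 2 + 2 * a * x₁ + b = 2 * M * (M * x₁ + C) := by
      linear_combination -e₂ + 2 * x₁ * e₁
    obtain ⟨-, hns⟩ := (Affine.nonsingular_iff _ _).mp h₁
    simp only [zero_mul, sub_zero] at hns
    rcases hns with hns | hns
    · exact hns (by linear_combination -hd - M * hy)
    · exact hns (by linear_combination hy)
  have hs : (twoCurve a b).toAffine.slope x₁ x₂ (M * x₁ + C) (M * x₂ + C) = M := by
    by_cases hx : x₁ = x₂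
    · subst hx
      have hy : M * x₁ + C ≠ (twoCurve a b).toAffine.negY x₁ (M * x₁ + C) := fun h => hxy ⟨rfl, h⟩
      rw [Affine.slope_of_Y_ne rfl hy, div_eq_iff (sub_ne_zero.mpr hy), twoCurve_negY]
      simp only [zero_mul, sub_zero]
      linear_combination -e₂ + 2 * x₁ * e₁
    · rw [Affine.slope_of_X_ne hx, div_eq_iff (sub_ne_zero.mpr hx)]
      ring
  rw [Affine.Point.add_some hxy, ← eq_neg_iff_add_eq_zero, Affine.Point.neg_some]
  simp only [hs, Affine.Point.some.injEq, Affine.addX, Affine.addY, Affine.negAddY, twoCurve_negY]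
  constructor
  · linear_combination -e₁
  · linear_combination M * e₁

/-- A chord or tangent meets the curve in the negative of the sum. -/
theorem exists_line {x₁ y₁ x₂ y₂ : F} (h₁ : (twoCurve a b).toAffine.Nonsingular x₁ y₁)
    (h₂ : (twoCurve a b).toAffine.Nonsingular x₂ y₂)
    (hxy : ¬ (x₁ = x₂ ∧ y₁ = (twoCurve a b).toAffine.negY x₂ y₂)) :
    ∃ (M C x₃ : F) (h₃ : (twoCurve a b).toAffine.Nonsingular x₃ (M * x₃ + C)),
      y₁ = M * x₁ + C ∧ y₂ = M * x₂ + C ∧ x₁ + x₂ + x₃ = M ^ 2 - a ∧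
      x₁ * x₂ + x₁ * x₃ + x₂ * x₃ = b - 2 * M * C ∧ x₁ * x₂ * x₃ = C ^ 2 ∧
      Affine.Point.some _ _ h₁ + Affine.Point.some _ _ h₂ = -Affine.Point.some _ _ h₃ := by
  set M := (twoCurve a b).toAffine.slope x₁ x₂ y₁ y₂ with hM
  have e1 := twoCurve_equation.mp h₁.1
  have e2 := twoCurve_equation.mp h₂.1
  obtain ⟨hy2, hd⟩ : y₂ - y₁ = M * (x₂ - x₁) ∧
      x₁ ^ 2 + x₁ * x₂ + x₂ ^ 2 + a * (x₁ + x₂) + b = M * (y₁ + y₂) := by
    by_cases hx : x₁ = x₂
    · subst hx
      have hy : y₁ ≠ (twoCurve a b).toAffine.negY x₁ y₂ := fun h => hxy ⟨rfl, h⟩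
      obtain rfl : y₁ = y₂ := Affine.Y_eq_of_Y_ne h₁.1 h₂.1 rfl hy
      refine ⟨by ring, ?_⟩
      rw [hM, Affine.slope_of_Y_ne rfl hy, twoCurve_negY, show y₁ + y₁ = y₁ - -y₁ by ring,
        div_mul_cancel₀]
      · simp only [zero_mul, sub_zero]; ring
      · rw [sub_ne_zero]; rwa [twoCurve_negY] at hy
    · have hM' : M * (x₁ - x₂) = y₁ - y₂ := by
        rw [hM, Affine.slope_of_X_ne hx, div_mul_cancel₀ _ (sub_ne_zero.mpr hx)]
      exact ⟨by linear_combination hM', mul_left_cancel₀ (sub_ne_zero.mpr hx)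
        (by linear_combination -e1 + e2 - (y₁ + y₂) * hM')⟩
  have hn := Affine.nonsingular_negAdd h₁ h₂ hxy
  refine ⟨M, y₁ - M * x₁, (twoCurve a b).toAffine.addX x₁ x₂ M, ?_, by ring,
    by linear_combination hy2, by simp only [Affine.addX]; ring, ?_, ?_, ?_⟩
  · convert hn using 1
    simp only [Affine.negAddY, ← hM]; ring
  · simp only [Affine.addX]
    linear_combination -hd - M * hy2
  · simp only [Affine.addX]
    linear_combination -e1 - x₁ * hd - x₁ * M * hy2
  · rw [Affine.Point.add_some hxy, Affine.Point.neg_some]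
    simp only [Affine.Point.some.injEq, Affine.addY, Affine.negAddY, twoCurve_negY, ← hM]
    simp only [true_and]; ring

theorem isogEquation {x y : F} (hx : x ≠ 0) (h : (twoCurve a b).toAffine.Equation x y) :
    (twoCurve (-2 * a) (a ^ 2 - 4 * b)).toAffine.Equation ((y / x) ^ 2)
      (y * (x ^ 2 - b) / x ^ 2) := by
  rw [twoCurve_equation] at h ⊢
  field_simp
  linear_combination
    -y ^ 2 * (y ^ 2 + x * (x ^ 2 + a * x + b) - 2 * a * x ^ 2) * h

variable [(twoCurve (-2 * a) (a ^ 2 - 4 * b)).IsElliptic]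

/-- The two-isogeny on points. -/
def isogFun : (twoCurve a b).toAffine.Point → (twoCurve (-2 * a) (a ^ 2 - 4 * b)).toAffine.Point
  | .zero => 0
  | .some x _ h =>
      if hx : x = 0 then 0
      else .some _ _ (Affine.equation_iff_nonsingular.mp (isogEquation hx h.1))

@[simp] theorem isogFun_zero : isogFun (0 : (twoCurve a b).toAffine.Point) = 0 := rfl

theorem isogFun_some {x y : F} {h : (twoCurve a b).toAffine.Nonsingular x y} (hx : x ≠ 0) :
    isogFun (Affine.Point.some _ _ h) =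
      .some _ _ (Affine.equation_iff_nonsingular.mp (isogEquation hx h.1)) :=
  dif_neg hx

theorem isogFun_some_zero {y : F} {h : (twoCurve a b).toAffine.Nonsingular 0 y} :
    isogFun (Affine.Point.some _ _ h) = 0 :=
  dif_pos rfl

theorem isogFun_neg (P : (twoCurve a b).toAffine.Point) : isogFun (-P) = -isogFun P := by
  rcases P with _ | ⟨x, y, h⟩
  · rfl
  rw [Affine.Point.neg_some]
  by_cases hx : x = 0
  · subst hx; rw [isogFun_some_zero, isogFun_some_zero, neg_zero]
  rw [isogFun_some hx, isogFun_some hx, Affine.Point.neg_some]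
  simp only [Affine.Point.some.injEq, twoCurve_negY]
  constructor <;> ring

/-- Translation by `(0, 0)` does not change the image. -/
theorem isogFun_kernel_add {y₀ : F} (h₀ : (twoCurve a b).toAffine.Nonsingular 0 y₀)
    (Q : (twoCurve a b).toAffine.Point) : isogFun (Affine.Point.some _ _ h₀ + Q) = isogFun Q := by
  obtain rfl : y₀ = 0 := by simpa using twoCurve_equation.mp h₀.1
  have hb : b ≠ 0 := fun hb => by
    obtain ⟨-, h | h⟩ := (Affine.nonsingular_iff _ _).mp h₀
    · exact h (by simp [hb])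
    · exact h (by simp)
  rcases Q with _ | ⟨x, y, h⟩
  · rw [← Affine.Point.zero_def, add_zero, isogFun_zero, isogFun_some_zero]
  by_cases hx : x = 0
  · subst hx
    obtain rfl : y = 0 := by simpa using twoCurve_equation.mp h.1
    rw [Affine.Point.add_of_Y_eq rfl (by simp), isogFun_zero, isogFun_some_zero]
  have hxy : ¬ ((0 : F) = x ∧ (0 : F) = (twoCurve a b).toAffine.negY x y) := fun e => hx e.1.symm
  have e := twoCurve_equation.mp h.1
  have eX : (twoCurve a b).toAffine.addX 0 x ((twoCurve a b).toAffine.slope 0 x 0 y) = b / x := by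
    rw [Affine.slope_of_X_ne (Ne.symm hx)]
    simp only [Affine.addX]
    field_simp
    linear_combination x * e
  have eY : (twoCurve a b).toAffine.addY 0 x 0 ((twoCurve a b).toAffine.slope 0 x 0 y) =
      -(b * y) / x ^ 2 := by
    simp only [Affine.addY, Affine.negAddY, twoCurve_negY, eX]
    rw [Affine.slope_of_X_ne (Ne.symm hx)]
    field_simp
    ring
  rw [Affine.Point.add_some hxy, isogFun_some (by rw [eX]; exact div_ne_zero hb hx),
    isogFun_some hx]
  simp only [Affine.Point.some.injEq, eX, eY]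
  constructor <;> field_simp
  ring

theorem isogFun_add (P Q : (twoCurve a b).toAffine.Point) :
    isogFun (P + Q) = isogFun P + isogFun Q := by
  rcases P with _ | ⟨x₁, y₁, h₁⟩
  · rw [← Affine.Point.zero_def, zero_add, isogFun_zero, zero_add]
  rcases Q with _ | ⟨x₂, y₂, h₂⟩
  · rw [← Affine.Point.zero_def, add_zero, isogFun_zero, add_zero]
  by_cases hx₁ : x₁ = 0
  · subst hx₁; rw [isogFun_kernel_add, isogFun_some_zero, zero_add]
  by_cases hx₂ : x₂ = 0
  · subst hx₂; rw [add_comm, isogFun_kernel_add, isogFun_some_zero, add_zero]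
  by_cases hxy : x₁ = x₂ ∧ y₁ = (twoCurve a b).toAffine.negY x₂ y₂
  · have hQ : Affine.Point.some _ _ h₁ = -Affine.Point.some _ _ h₂ := by
      rw [Affine.Point.neg_some]; simp only [Affine.Point.some.injEq]; exact hxy
    rw [hQ, neg_add_cancel, isogFun_zero, isogFun_neg, neg_add_cancel]
  obtain ⟨M, C, x₃, h₃, rfl, rfl, e₁, e₂, e₃, hsum⟩ := exists_line h₁ h₂ hxy
  by_cases hx₃ : x₃ = 0
  · subst hx₃
    have hQ : Affine.Point.some _ _ h₂ =
        -(Affine.Point.some _ _ h₃ + Affine.Point.some _ _ h₁) := by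
      rw [← sub_eq_zero, ← sub_eq_zero.mpr hsum]; abel
    rw [hsum, hQ, isogFun_neg, isogFun_neg, isogFun_kernel_add, isogFun_some_zero, add_neg_cancel,
      neg_zero]
  rw [hsum, isogFun_neg, ← add_eq_zero_iff_neg_eq, add_comm, isogFun_some hx₁, isogFun_some hx₂,
    isogFun_some hx₃]
  have hC : C ≠ 0 := fun hC => mul_ne_zero (mul_ne_zero hx₁ hx₂) hx₃ (by rw [e₃, hC]; ring)
  set C' := C + b * M ^ 2 / C - a * M with hC'
  have key : ∀ x, x ≠ 0 → (twoCurve a b).toAffine.Equation x (M * x + C) →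
      (M * x + C) * (x ^ 2 - b) / x ^ 2 = (M - b / C) * ((M * x + C) / x) ^ 2 + C' := by
    intro x hx h
    rw [twoCurve_equation] at h
    rw [hC']
    field_simp
    linear_combination -(C * M) * h
  obtain ⟨p₁, p₂, p₃⟩ : (M + C / x₁) + (M + C / x₂) + (M + C / x₃) = M + b / C ∧
      (M + C / x₁) * (M + C / x₂) + (M + C / x₁) * (M + C / x₃) + (M + C / x₂) * (M + C / x₃) =
        2 * M * b / C - a ∧
      (M + C / x₁) * (M + C / x₂) * (M + C / x₃) = C' := by
    rw [hC']
    refine ⟨?_, ?_, ?_⟩ <;> field_simp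
    · linear_combination C ^ 2 * e₂ + (2 * M * C - b) * e₃
    · linear_combination C ^ 3 * e₁ + 2 * C ^ 2 * M * e₂ +
        (3 * M ^ 2 * C + a * C - 2 * M * b) * e₃
    · linear_combination C ^ 3 * M * e₁ + C ^ 2 * M ^ 2 * e₂ +
        (C * M ^ 3 + a * C * M - b * M ^ 2 - C ^ 2) * e₃
  have hz : ∀ x, x ≠ 0 → ((M * x + C) / x) = M + C / x := fun x hx => by field_simp
  simp only [key x₁ hx₁ h₁.1, key x₂ hx₂ h₂.1, key x₃ hx₃ h₃.1]
  refine add_add_eq_zero_of_line _ _ _ ?_ ?_
  · rw [hz _ hx₁, hz _ hx₂, hz _ hx₃]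
    generalize M + C / x₁ = z₁ at *
    generalize M + C / x₂ = z₂ at *
    generalize M + C / x₃ = z₃ at *
    rw [show z₁ ^ 2 + z₂ ^ 2 + z₃ ^ 2 = (z₁ + z₂ + z₃) ^ 2 - 2 * (z₁ * z₂ + z₁ * z₃ + z₂ * z₃) by
      ring, p₁, p₂]
    ring
  · rw [hz _ hx₁, hz _ hx₂, hz _ hx₃]
    generalize M + C / x₁ = z₁ at *
    generalize M + C / x₂ = z₂ at *
    generalize M + C / x₃ = z₃ at *
    rw [show z₁ ^ 2 * z₂ ^ 2 + z₁ ^ 2 * z₃ ^ 2 + z₂ ^ 2 * z₃ ^ 2 =
      (z₁ * z₂ + z₁ * z₃ + z₂ * z₃) ^ 2 - 2 * (z₁ + z₂ + z₃) * (z₁ * z₂ * z₃) by ring, p₁, p₂, p₃,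
      hC']
    field_simp
    ring

/-- **The two-isogeny.** -/
noncomputable def isogHom :
    (twoCurve a b).toAffine.Point →+ (twoCurve (-2 * a) (a ^ 2 - 4 * b)).toAffine.Point :=
  AddMonoidHom.mk' isogFun isogFun_add

theorem isogHom_apply (P : (twoCurve a b).toAffine.Point) : isogHom P = isogFun P := rfl

section algClosed

variable {k : Type u} [Field k] [DecidableEq k] [IsAlgClosed k]

/-- Two homomorphisms which agree outside finitely many abscissae are equal. -/
theorem hom_eq_of_generic {a b : k} {A : Type*} [AddCommGroup A]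
    {f g : (twoCurve a b).toAffine.Point →+ A} [(twoCurve a b).IsElliptic] (S : Finset k)
    (h : ∀ (w y : k) (hn : (twoCurve a b).toAffine.Nonsingular w y), w ∉ S →
      f (.some _ _ hn) = g (.some _ _ hn)) : f = g := by
  have hpt : ∀ w : k, ∃ y, (twoCurve a b).toAffine.Nonsingular w y := fun w => by
    obtain ⟨y, hy⟩ := IsAlgClosed.exists_pow_nat_eq (w ^ 3 + a * w ^ 2 + b * w) two_pos
    exact ⟨y, Affine.equation_iff_nonsingular.mp (twoCurve_equation.mpr hy)⟩
  choose Y hY using hpt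
  have : Infinite (twoCurve a b).toAffine.Point :=
    Infinite.of_injective (fun w => Affine.Point.some w (Y w) (hY w)) fun w w' e => by
      simp only [Affine.Point.some.injEq] at e; exact e.1
  set T : Set (twoCurve a b).toAffine.Point := {0} ∪ ⋃ w ∈ (S : Set k),
    {P | ∃ (y : k) (hn : (twoCurve a b).toAffine.Nonsingular w y), P = .some _ _ hn} with hT
  have hfin : T.Finite := by
    refine (Set.finite_singleton 0).union (S.finite_toSet.biUnion fun w _ => ?_)
    classical
    refine ((finite_roots_two (w ^ 3 + a * w ^ 2 + b * w)).image fun y =>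
      if hn : (twoCurve a b).toAffine.Nonsingular w y then Affine.Point.some _ _ hn
      else 0).subset ?_
    rintro P ⟨y, hn, rfl⟩
    exact ⟨y, twoCurve_equation.mp hn.1, dif_pos hn⟩
  have hgen : ∀ P ∉ T, f P = g P := by
    rintro (_ | ⟨w, y, hn⟩) hP
    · exact absurd (Or.inl rfl) hP
    · refine h w y hn fun hw => hP (Or.inr ?_)
      exact Set.mem_biUnion hw ⟨y, hn, rfl⟩
  refine AddMonoidHom.ext fun P => ?_
  obtain ⟨Q, hQ⟩ := ((hfin.union (hfin.image fun R => R - P)).infinite_compl).nonempty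
  simp only [Set.mem_compl_iff, Set.mem_union, not_or] at hQ
  have h1 := hgen (P + Q) fun hm => hQ.2 ⟨P + Q, hm, by abel_nf⟩
  rw [map_add, map_add, hgen Q hQ.1] at h1
  exact add_right_cancel h1
where
  finite_roots_two (c : k) : {y : k | y ^ 2 = c}.Finite :=
    (Polynomial.nthRoots 2 c).toFinset.finite_toSet.subset fun y hy => by
      simpa [Polynomial.mem_nthRoots two_pos] using hy

end algClosed

end FA.CM.Seven
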