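import Fermat.Agent.CM.Seven.Trace
import Fermat.Agent.CM.OddOrder.Weight
import Fermat.Agent.CM.Isogeny
import Fermat.Agent.CM.OrderThree
import Fermat.Agent.CM.Common

/-!
# The L-functions of the curves with `j = -3375` or `j = 16581375`

These are the quadratic twists of `y² + x y = x³ - x² - 2 x - 1` and of its two-isogenous curve
`y² + x y = x³ - x² - 37 x - 78`, both of discriminant a power of `7`.
-/

set_option autoImplicit false

noncomputable section

open WeierstrassCurve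
open FA.Twists
open FA.CM.OddOrder

namespace FA.CM.Seven

instance factFourTwo : Fact (7 + 1 = 4 * 2) := ⟨rfl⟩

local instance : Fact (Nat.Prime 7) := ⟨Nat.prime_seven⟩

/-- `y² + x y = x³ - x² - 37 x - 78` -/
def curveB : WeierstrassCurve ℤ := ⟨1, -1, 0, -37, -78⟩

theorem curveB_invariants : curveB.c₄ = 1785 ∧ curveB.c₆ = 75411 ∧ curveB.Δ = 343 := by
  refine ⟨?_, ?_, ?_⟩ <;> norm_num [curveB, c₄, c₆, WeierstrassCurve.Δ, b₂, b₄, b₆, b₈]

theorem good_of_dvd_343 {l : ℕ} (hl : l.Prime) (hl7 : l ≠ 7) {d : ℤ} (hd : d = 343 ∨ d = -343) :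
    ¬ (l : ℤ) ∣ d := fun h => by
  have h' : l ∣ 7 ^ 3 := by
    rcases hd with rfl | rfl
    · exact_mod_cast h
    · rw [Int.dvd_neg] at h; exact_mod_cast h
  exact hl7 ((Nat.prime_dvd_prime_iff_eq hl Nat.prime_seven).mp (hl.dvd_of_dvd_pow h'))

/-- Equations of one curve have the same trace at a common good prime. -/
theorem apOfModel_eq_of_models {E : WeierstrassCurve ℚ} {U V : WeierstrassCurve ℤ}
    (hU : U.IsIntegralModelOf E) (hV : V.IsIntegralModelOf E) {l : ℕ} (hl : l.Prime)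
    (gU : ¬ (l : ℤ) ∣ U.Δ) (gV : ¬ (l : ℤ) ∣ V.Δ) : U.apOfModel l = V.apOfModel l := by
  rw [← FA.Root.LFunction_apply_prime E U hU hl gU, FA.Root.LFunction_apply_prime E V hV hl gV]

theorem countTwo_curves : countTwo (⟨1, -1, 0, -2, -1⟩ : WeierstrassCurve (ZMod 2)) = 1 ∧
    countTwo (⟨1, -1, 0, -37, -78⟩ : WeierstrassCurve (ZMod 2)) = 1 := by
  constructor <;> · simp only [countTwo]; decide

/-- The traces of the two curves. -/
theorem trace_recursion {W : WeierstrassCurve ℤ} (hW : W = curveA ∨ W = curveB) {l : ℕ}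
    (hl : l.Prime) (hl7 : l ≠ 7) (m : ℕ) :
    oddCoeff 7 2 (l * m) + (if l ∣ m then (l : ℂ) * oddCoeff 7 2 (m / l) else 0) =
      (W.apOfModel l : ℂ) * oddCoeff 7 2 m := by
  have := Fact.mk hl
  rcases eq_or_ne l 2 with rfl | hl2
  · have h1 : W.apOfModel 2 = 1 := by
      obtain ⟨eA, eB⟩ := countTwo_curves
      have hΔ : (W.reductionMod 2).Δ ≠ 0 := by
        rw [reductionMod, map_Δ, eq_intCast, Ne, ZMod.intCast_zmod_eq_zero_iff_dvd]
        rcases hW with rfl | rfl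
        · rw [curveA_invariants.2.2]; norm_num
        · rw [curveB_invariants.2.2]; norm_num
      rw [apOfModel, traceOfFrobenius_two _ hΔ]
      rcases hW with rfl | rfl
      · rw [show curveA.reductionMod 2 = (⟨1, -1, 0, -2, -1⟩ : WeierstrassCurve (ZMod 2)) by
          ext <;> simp [curveA, reductionMod], eA]
        norm_num
      · rw [show curveB.reductionMod 2 = (⟨1, -1, 0, -37, -78⟩ : WeierstrassCurve (ZMod 2)) by
          ext <;> simp [curveB, reductionMod], eB]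
        norm_num
    rw [h1]
    exact oddCoeff_split 7 hl (by norm_num) (a := 1) (b := 1) (by norm_num) (by decide) m
  set U : WeierstrassCurve ℤ := ⟨0, 21, 0, 112, 0⟩ with hU
  set V : WeierstrassCurve ℤ := ⟨0, -2 * 21, 0, 21 ^ 2 - 4 * 112, 0⟩ with hV
  have hUΔ : U.Δ = -(2 ^ 12 * 7 ^ 3) := by
    norm_num [hU, WeierstrassCurve.Δ, b₂, b₄, b₆, b₈]
  have hVΔ : V.Δ = 2 ^ 12 * 7 ^ 3 := by
    norm_num [hV, WeierstrassCurve.Δ, b₂, b₄, b₆, b₈]
  have hg : ¬ (l : ℤ) ∣ 2 ^ 12 * 7 ^ 3 := fun h => by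
    have h' : l ∣ 2 ^ 12 * 7 ^ 3 := by exact_mod_cast h
    rcases hl.dvd_mul.mp h' with h | h
    · exact hl2 ((Nat.prime_dvd_prime_iff_eq hl Nat.prime_two).mp (hl.dvd_of_dvd_pow h))
    · exact hl7 ((Nat.prime_dvd_prime_iff_eq hl Nat.prime_seven).mp (hl.dvd_of_dvd_pow h))
  have gU : ¬ (l : ℤ) ∣ U.Δ := by rwa [hUΔ, Int.dvd_neg]
  have gV : ¬ (l : ℤ) ∣ V.Δ := by rwa [hVΔ]
  have hA : curveA.apOfModel l = U.apOfModel l := by
    refine apOfModel_eq_of_models (E := curveA.map (Int.castRingHom ℚ)) ⟨1, by rw [one_smul]⟩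
        (isIntegralModelOf_of_invariants (w := 2) two_ne_zero ?_ ?_) hl
        (by rw [curveA_invariants.2.2]; exact good_of_dvd_343 hl hl7 (Or.inr rfl)) gU
    · rw [map_c₄, curveA_invariants.1]; norm_num [hU, c₄, b₂, b₄]
    · rw [map_c₆, curveA_invariants.2.1]; norm_num [hU, c₆, b₂, b₄, b₆]
  have htr : W.apOfModel l = curveA.apOfModel l := by
    rcases hW with rfl | rfl
    · rfl
    · rw [hA]
      refine (apOfModel_eq_of_models (E := curveB.map (Int.castRingHom ℚ)) ⟨1, by rw [one_smul]⟩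
        (V := V) (isIntegralModelOf_of_invariants (w := 2) two_ne_zero ?_ ?_) hl
        (by rw [curveB_invariants.2.2]; exact good_of_dvd_343 hl hl7 (Or.inl rfl)) gV).trans
          (apOfModel_two_isogeny hl2 21 112 gU gV).symm
      · rw [map_c₄, curveB_invariants.1]; norm_num [hV, c₄, b₂, b₄]
      · rw [map_c₆, curveB_invariants.2.1]; norm_num [hV, c₆, b₂, b₄, b₆]
  rw [htr]
  by_cases h : IsSquare (-((7 : ℕ) : ZMod l))
  · obtain ⟨⟨b, hb⟩, ha⟩ := (apOfModel_curveA hl hl2 hl7).2 h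
    exact oddCoeff_split 7 hl hl7 hb ha m
  · rw [(apOfModel_curveA hl hl2 hl7).1 h, Int.cast_zero, zero_mul]
    exact oddCoeff_inert 7 hl hl7 (Or.inl h) m

/-- **The L-function of a twist.** -/
theorem LFunction_seven_twist {W : WeierstrassCurve ℤ} (hW : W = curveA ∨ W = curveB)
    (E : WeierstrassCurve ℚ) {x : ℚ} {D : ℤ} (hD : Squarefree D) (hx : x ≠ 0)
    (h4 : E.c₄ = x ^ 4 * (D : ℚ) ^ 2 * (W.c₄ : ℚ)) (h6 : E.c₆ = x ^ 6 * (D : ℚ) ^ 3 * (W.c₆ : ℚ))
    {q : ℕ} (ψ : DirichletCharacter ℂ q)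
    (hψ : ∀ l : ℕ, l.Prime → ψ (l : ZMod q) = (twistSign D l : ℂ)) (n : ℕ) :
    (E.LFunction n : ℂ) = ψ (n : ZMod q) * oddCoeff 7 2 n := by
  obtain ⟨A, B, hA, hB, hWA, hWB⟩ : ∃ A B : ℤ, ¬ (7 : ℤ) ∣ A ∧ ¬ (7 : ℤ) ∣ B ∧
      W.c₄ = 7 ^ 1 * A ∧ W.Δ = 7 ^ 3 * B := by
    rcases hW with rfl | rfl
    · exact ⟨15, -1, by norm_num, by norm_num, by rw [curveA_invariants.1]; norm_num,
        by rw [curveA_invariants.2.2]; norm_num⟩
    · exact ⟨255, 1, by norm_num, by norm_num, by rw [curveB_invariants.1]; norm_num,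
        by rw [curveB_invariants.2.2]; norm_num⟩
  refine FA.CM.LFunction_twist_eq_of_recursion (P := 7)
    (by rw [hWB]; exact mul_ne_zero (by norm_num) fun h => hB (h ▸ dvd_zero _))
    (oddCoeff_zero 7) (oddCoeff_one 7 le_rfl) (oddCoeff_ramified 7) (fun l hl hl7 => ?_)
    (fun l hl hl7 => trace_recursion hW hl hl7) hD hx h4 h6
    (FA.CM.LFunction_prime_pow_of_exponents Nat.prime_seven E (z := x ^ 2 * D)
      (mul_ne_zero (pow_ne_zero 2 hx) (Int.cast_ne_zero.mpr hD.ne_zero)) (A := W.c₄) (β := 3)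
      hB (by norm_num) (Or.inr ⟨1, A, hWA, hA, Or.inr (by norm_num)⟩) (by rw [h4]; ring)
      (by rw [FA.CM.twist_Δ h4 h6, hWB]; push_cast; ring)) ψ hψ n
  rcases hW with rfl | rfl
  · rw [curveA_invariants.2.2]; exact good_of_dvd_343 hl hl7 (Or.inr rfl)
  · rw [curveB_invariants.2.2]; exact good_of_dvd_343 hl hl7 (Or.inl rfl)

end FA.CM.Seven

end
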