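import Fermat.Agent.CM.Seven.LFunction

/-!
# Every curve with multiplication by an order of `ℚ (√-7)` is modular

These are the curves with `j = -3375` or `j = 16581375`; all coefficients of their L-functions are
those of twisted theta series of weight two, so their L-series are entire.
-/

set_option autoImplicit false

noncomputable section

open WeierstrassCurve CongruenceSubgroup FA.Twists

namespace FA.CM.Seven

local instance : Fact (Nat.Prime 7) := ⟨Nat.prime_seven⟩

/-- The series as a cusp form. -/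
theorem exists_form_of_j (E : WeierstrassCurve ℚ) [E.IsElliptic]
    (hj : E.j = -3375 ∨ E.j = 16581375) :
    ∃ (N : ℕ) (f : CuspForm (Gamma0 N) 2), 0 < N ∧
      ∀ n : ℕ, ModularFormClass.qCoeff f n = (E.LFunction n : ℂ) := by
  obtain ⟨W, hW, h4W, h6W, hjW⟩ : ∃ W : WeierstrassCurve ℤ, (W = curveA ∨ W = curveB) ∧
      W.c₄ ≠ 0 ∧ W.c₆ ≠ 0 ∧ (W.c₄ : ℚ) ^ 3 = E.j * (W.Δ : ℚ) := by
    obtain ⟨a4, a6, aΔ⟩ := curveA_invariants
    obtain ⟨b4, b6, bΔ⟩ := curveB_invariants
    rcases hj with h | h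
    · exact ⟨curveA, Or.inl rfl, by rw [a4]; decide, by rw [a6]; decide,
        by rw [h, a4, aΔ]; norm_num⟩
    · exact ⟨curveB, Or.inr rfl, by rw [b4]; decide, by rw [b6]; decide,
        by rw [h, b4, bΔ]; norm_num⟩
  obtain ⟨x, D, hD, hx, h4, h6⟩ := FA.CM.exists_twist_of_j E W h4W h6W hjW
  obtain ⟨q, ψ, -, hq, hsq, -, hval⟩ := exists_twistSign_char hD
  have : NeZero q := ⟨hq.ne'⟩
  obtain ⟨N, f, hN, hf⟩ := FA.CM.OddOrder.exists_oddForm 7 (m := 2) ψ hsq
  exact ⟨N, f, hN, fun n => by rw [hf, LFunction_seven_twist hW E hD hx h4 h6 ψ hval]⟩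

end FA.CM.Seven

namespace FA.Summary

open FA.CM.Seven

/-- **Every curve with multiplication by an order of `ℚ (√-7)`** is modular: all coefficients of
its L-function are those of a cusp form of weight two. -/
theorem modularity_of_j_sqrt_neg_seven (E : WeierstrassCurve ℚ) [E.IsElliptic]
    (hj : E.j = -3375 ∨ E.j = 16581375) :
    ∃ (N : ℕ) (f : CuspForm (Gamma0 N) 2), 0 < N ∧
      ∀ n : ℕ, (UpperHalfPlane.qExpansion 1 f).coeff n = (E.LFunction n : ℂ) :=
  exists_form_of_j E hj

/-- Their L-series are entire. -/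
theorem entire_continuation_of_j_sqrt_neg_seven (E : WeierstrassCurve ℚ) [E.IsElliptic]
    (hj : E.j = -3375 ∨ E.j = 16581375) :
    ∃ g : ℂ → ℂ, Differentiable ℂ g ∧ ∀ s : ℂ, 3 / 2 < s.re → E.LSeries s = g s := by
  obtain ⟨N, f, hN, hf⟩ := exists_form_of_j E hj
  exact FA.CM.exists_entire_of_qCoeff E hN f hf

end FA.Summary

end
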