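import Fermat.Agent.CM.ClassOne.Setting

/-!
# The traces of Frobenius of `y² + x y = x³ - x² - 2 x - 1`

Its short equation is `y² = x³ - 35 x - 98`. The kernel of `√-7` is the subgroup of order seven cut
out by `x³ + 7 x² - 21 x - 91`, and Vélu's formula gives a certificate for `√-7`; the square root
of `-7` on the points gives the traces at the odd primes `l ≠ 7`.
-/

set_option autoImplicit false

noncomputable section

open WeierstrassCurve Polynomial FA.CM.ClassOne
open scoped WeierstrassCurve.Affine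

namespace FA.CM.Seven

/-- `y² + x y = x³ - x² - 2 x - 1` -/
def curveA : WeierstrassCurve ℤ := ⟨1, -1, 0, -2, -1⟩

theorem curveA_invariants : curveA.c₄ = 105 ∧ curveA.c₆ = 1323 ∧ curveA.Δ = -343 := by
  refine ⟨?_, ?_, ?_⟩ <;> norm_num [curveA, c₄, c₆, WeierstrassCurve.Δ, b₂, b₄, b₆, b₈]

section cert

variable {k : Type*} [Field k] [CharZero k]

/-- The numerator of the abscissa. -/
def numNSeven : k[X] :=
  X ^ 7 + 14 * X ^ 6 + 343 * X ^ 5 - 588 * X ^ 4 - 24353 * X ^ 3 - 120050 * X ^ 2 - 285719 * X -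
    422576

/-- The numerator of the ordinate. -/
def numVSeven : k[X] :=
  X ^ 9 + 21 * X ^ 8 - 252 * X ^ 7 + 1764 * X ^ 6 + 43806 * X ^ 5 + 519302 * X ^ 4 +
    3834740 * X ^ 3 + 15183924 * X ^ 2 + 27681129 * X + 8252237

/-- The kernel polynomial. -/
def kerSeven : k[X] := X ^ 3 + 7 * X ^ 2 - 21 * X - 91

/-- **The certificate for `√-7`.** -/
def certSeven (s : k) (hs : s ^ 2 = -7) : Cert (-35 : k) (-98) s where
  N := numNSeven
  V := numVSeven
  h := C s * kerSeven
  V_ne := Monic.ne_zero (by rw [numVSeven]; monicity!)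
  h_ne := mul_ne_zero (C_ne_zero.mpr fun e => by rw [e] at hs; norm_num at hs)
    (Monic.ne_zero (by rw [kerSeven]; monicity!))
  curve_eq := by
    have e : C s ^ 2 = (-7 : k[X]) := by rw [← C_pow, hs, map_neg, map_ofNat]
    simp only [map_neg, map_ofNat, numNSeven, numVSeven, kerSeven, mul_pow,
      show C s ^ 4 = (C s ^ 2) ^ 2 by ring, show C s ^ 6 = (C s ^ 2) ^ 3 by ring, e]
    ring
  deriv_eq := by
    simp only [numNSeven, numVSeven, kerSeven, derivative_mul, derivative_C, derivative_add,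
      derivative_sub, derivative_X_pow, derivative_X, derivative_ofNat]
    push_cast
    simp only [map_ofNat]
    ring

end cert

instance : (shortCurve (-35 : ℚ) (-98)).IsElliptic :=
  ⟨isUnit_iff_ne_zero.mpr (by norm_num [WeierstrassCurve.Δ, b₂, b₄, b₆, b₈])⟩

/-- **The traces** at the odd primes of good reduction. -/
theorem apOfModel_curveA [Fact (Nat.Prime 7)] {l : ℕ} (hl : l.Prime) (hl2 : l ≠ 2) (hl7 : l ≠ 7) :
    (¬ IsSquare (-((7 : ℕ) : ZMod l)) → curveA.apOfModel l = 0) ∧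
    (IsSquare (-((7 : ℕ) : ZMod l)) →
      (∃ b : ℤ, 4 * (l : ℤ) = curveA.apOfModel l ^ 2 + ((7 : ℕ) : ℤ) * b ^ 2) ∧
      quadraticChar (ZMod 7) (curveA.apOfModel l : ZMod 7) = quadraticChar (ZMod 7) 2) := by
  obtain ⟨e4, e6, eΔ⟩ := curveA_invariants
  obtain ⟨s, hs⟩ := IsAlgClosed.exists_pow_nat_eq (-(7 : AlgebraicClosure ℚ)) two_pos
  have c : CertOver (-35 : ℚ) (-98) s := by
    have := certSeven s (by exact hs)
    simpa [CertOver] using this
  obtain ⟨M, hM, hg⟩ := exists_sqrt_endo_of_root_cert (-35 : ℚ) (-98) (q := 7) (by norm_num)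
    (by exact_mod_cast hs) c
  refine traces_of_endo (q := 7) (E := shortCurve (-35 : ℚ) (-98)) (W := curveA) ?_ (by norm_num)
    (fun p hp hp7 => good_of_ne (q := 7) (by rw [eΔ]; norm_num) hp hp7) (by exact_mod_cast hs)
    (fun P => by rw [hM]; norm_num) (fun σ => (hg σ).1) (fun σ => (hg σ).2) l hl hl7 hl2
  refine FA.Twists.isIntegralModelOf_of_invariants (w := 1 / 2) (by norm_num) ?_ ?_
  · rw [e4]; norm_num [c₄, b₂, b₄]
  · rw [e6]; norm_num [c₆, b₂, b₄, b₆]

end FA.CM.Seven

end
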